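import Mathlib.Topology.ContinuousMap.Bounded.Normed
import Mathlib.Topology.MetricSpace.Contracting
import Mathlib.Analysis.Normed.Operator.BoundedLinearMaps
import Mathlib.Analysis.SpecificLimits.Normed
import Mathlib.Topology.Algebra.InfiniteSum.Module

/-!
# Conjugating a perturbation of a hyperbolic map

For a hyperbolic `L` the equation `u ∘ ψ - L ∘ u = h` has one bounded continuous solution, given by
two geometric series, for every homeomorphism `ψ`.  On a group `X` covered by `π : E → X` this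
makes the equation of the conjugacy between `φ` and `φ + π ∘ g` a contraction, and shows that its
solution has an inverse of the same shape.
-/

set_option autoImplicit false

noncomputable section

namespace FA.HartmanGrobman

open Filter Topology
open scoped BoundedContinuousFunction NNReal

variable {E : Type*} [NormedAddCommGroup E] [NormedSpace ℝ E]

/-- A projection data making `L` contract forwards on one part, backwards on the other. -/
structure Splitting (L : E ≃L[ℝ] E) where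
  /-- The part contracted forwards. -/
  P : E →L[ℝ] E
  /-- The constant. -/
  C : ℝ
  /-- The ratio. -/
  r : ℝ
  C_nonneg : 0 ≤ C
  r_nonneg : 0 ≤ r
  r_lt_one : r < 1
  comm : ∀ x, P (L x) = L (P x)
  forward : ∀ n : ℕ, ‖(L : E →L[ℝ] E) ^ n * P‖ ≤ C * r ^ n
  backward : ∀ n : ℕ, ‖(L.symm : E →L[ℝ] E) ^ n * (1 - P)‖ ≤ C * r ^ n

namespace Splitting

variable {L : E ≃L[ℝ] E} (S : Splitting L) {X : Type*} [TopologicalSpace X]

/-- A bound for the inverse of `u ↦ u ∘ ψ - L ∘ u`. -/
def bound : ℝ := S.C / (1 - S.r) + S.C / (1 - S.r)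

theorem bound_nonneg : 0 ≤ S.bound :=
  add_nonneg (div_nonneg S.C_nonneg (sub_pos.2 S.r_lt_one).le)
    (div_nonneg S.C_nonneg (sub_pos.2 S.r_lt_one).le)

/-- The composition `x ↦ A (h (ψ^[n] x))`. -/
def term (A : E →L[ℝ] E) (ψ : C(X, X)) (n : ℕ) (h : X →ᵇ E) : X →ᵇ E :=
  A.compLeftContinuousBounded X (h.compContinuous ⟨ψ^[n], ψ.continuous.iterate n⟩)

theorem term_apply (A : E →L[ℝ] E) (ψ : C(X, X)) (n : ℕ) (h : X →ᵇ E) (x : X) :
    term A ψ n h x = A (h (ψ^[n] x)) := rfl

theorem norm_term_le (A : E →L[ℝ] E) (ψ : C(X, X)) (n : ℕ) (h : X →ᵇ E) :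
    ‖term A ψ n h‖ ≤ ‖A‖ * ‖h‖ :=
  (BoundedContinuousFunction.norm_le (by positivity)).2 fun x =>
    (A.le_opNorm _).trans (mul_le_mul_of_nonneg_left (h.norm_coe_le_norm _) (norm_nonneg A))

theorem norm_back_le (n : ℕ) :
    ‖(L.symm : E →L[ℝ] E) ^ (n + 1) * (1 - S.P)‖ ≤ S.C * S.r ^ n :=
  (S.backward (n + 1)).trans (mul_le_mul_of_nonneg_left
    (pow_le_pow_of_le_one S.r_nonneg S.r_lt_one.le (Nat.le_succ n)) S.C_nonneg)

/-- The terms of the first series. -/
def pos (ψ : X ≃ₜ X) (h : X →ᵇ E) (n : ℕ) : X →ᵇ E :=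
  term ((L : E →L[ℝ] E) ^ n * S.P) (ψ.symm : C(X, X)) (n + 1) h

/-- The terms of the second series. -/
def neg (ψ : X ≃ₜ X) (h : X →ᵇ E) (n : ℕ) : X →ᵇ E :=
  term ((L.symm : E →L[ℝ] E) ^ (n + 1) * (1 - S.P)) (ψ : C(X, X)) n h

theorem norm_pos_le (ψ : X ≃ₜ X) (h : X →ᵇ E) (n : ℕ) :
    ‖S.pos ψ h n‖ ≤ S.C * ‖h‖ * S.r ^ n :=
  (norm_term_le _ _ _ h).trans
    ((mul_le_mul_of_nonneg_right (S.forward n) (norm_nonneg h)).trans_eq (by ring))

theorem norm_neg_le (ψ : X ≃ₜ X) (h : X →ᵇ E) (n : ℕ) :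
    ‖S.neg ψ h n‖ ≤ S.C * ‖h‖ * S.r ^ n :=
  (norm_term_le _ _ _ h).trans
    ((mul_le_mul_of_nonneg_right (S.norm_back_le n) (norm_nonneg h)).trans_eq (by ring))

theorem hasSum_bound (a : ℝ) : HasSum (fun n : ℕ => a * S.r ^ n) (a * (1 - S.r)⁻¹) :=
  (hasSum_geometric_of_lt_one S.r_nonneg S.r_lt_one).mul_left a

variable [CompleteSpace E]

omit [CompleteSpace E] in
theorem hasSum_apply {f : ℕ → X →ᵇ E} {u : X →ᵇ E} (hf : HasSum f u) (y : X) :
    HasSum (fun n => f n y) (u y) :=
  hf.map (BoundedContinuousFunction.evalCLM ℝ y) (BoundedContinuousFunction.evalCLM ℝ y).continuous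

/-- The solution of `u ∘ ψ - L ∘ u = h`. -/
def solve (ψ : X ≃ₜ X) (h : X →ᵇ E) : X →ᵇ E := ∑' n, S.pos ψ h n - ∑' n, S.neg ψ h n

omit [CompleteSpace E] in
theorem norm_solve_le (ψ : X ≃ₜ X) (h : X →ᵇ E) : ‖S.solve ψ h‖ ≤ S.bound * ‖h‖ := by
  refine (norm_sub_le _ _).trans (le_of_le_of_eq (add_le_add
    (tsum_of_norm_bounded (S.hasSum_bound _) (S.norm_pos_le ψ h))
    (tsum_of_norm_bounded (S.hasSum_bound _) (S.norm_neg_le ψ h))) ?_)
  rw [bound]
  ring

theorem solve_eq (ψ : X ≃ₜ X) (h : X →ᵇ E) (x : X) :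
    S.solve ψ h (ψ x) = L (S.solve ψ h x) + h x := by
  have hp : Summable (S.pos ψ h) :=
    .of_norm_bounded (S.hasSum_bound _).summable (S.norm_pos_le ψ h)
  have hn : Summable (S.neg ψ h) :=
    .of_norm_bounded (S.hasSum_bound _).summable (S.norm_neg_le ψ h)
  set a := fun y n => S.pos ψ h n y
  set b := fun y n => S.neg ψ h n y
  have ha : ∀ y, HasSum (a y) ((∑' n, S.pos ψ h n) y) := fun y =>
    hasSum_apply hp.hasSum y
  have hb : ∀ y, HasSum (b y) ((∑' n, S.neg ψ h n) y) := fun y =>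
    hasSum_apply hn.hasSum y
  have hP : a (ψ x) 0 = S.P (h x) := by
    simp [a, pos, term_apply]
  have hPs : ∀ n, a (ψ x) (n + 1) = L (a x n) := fun n => by
    show ((L : E →L[ℝ] E) ^ (n + 1) * S.P) (h (ψ.symm^[n + 1 + 1] (ψ x))) =
      L (((L : E →L[ℝ] E) ^ n * S.P) (h (ψ.symm^[n + 1] x)))
    rw [Function.iterate_succ_apply, ψ.symm_apply_apply, pow_succ']
    rfl
  have hNs : ∀ n, L (b x (n + 1)) = b (ψ x) n := fun n => by
    show L (((L.symm : E →L[ℝ] E) ^ (n + 1 + 1) * (1 - S.P)) (h (ψ^[n + 1] x))) =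
      ((L.symm : E →L[ℝ] E) ^ (n + 1) * (1 - S.P)) (h (ψ^[n] (ψ x)))
    rw [Function.iterate_succ_apply, pow_succ' _ (n + 1)]
    exact L.apply_symm_apply _
  have hN : L (b x 0) = h x - S.P (h x) := by
    show L (((L.symm : E →L[ℝ] E) ^ (0 + 1) * (1 - S.P) : E →L[ℝ] E) (h x)) = _
    rw [zero_add, pow_one]
    exact L.apply_symm_apply _
  have hA : HasSum (a (ψ x)) (S.P (h x) + L ((∑' n, S.pos ψ h n) x)) := by
    refine (hasSum_nat_add_iff' 1).1 ?_
    simp only [Finset.sum_range_one, hP, add_sub_cancel_left, hPs]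
    exact (L : E →L[ℝ] E).hasSum (ha x)
  have hB : HasSum (b (ψ x)) (L ((∑' n, S.neg ψ h n) x) - (h x - S.P (h x))) := by
    have h1 := (hasSum_nat_add_iff' (f := fun n => L (b x n)) 1).2
      ((L : E →L[ℝ] E).hasSum (hb x))
    simp only [Finset.sum_range_one, hN, hNs] at h1
    exact h1
  simp only [solve, BoundedContinuousFunction.coe_sub, Pi.sub_apply, map_sub]
  rw [(ha (ψ x)).unique hA, (hb (ψ x)).unique hB]
  abel

omit [CompleteSpace E] in
theorem pow_symm_pow (n : ℕ) (y : E) :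
    ((L.symm : E →L[ℝ] E) ^ n) (((L : E →L[ℝ] E) ^ n) y) = y := by
  induction n generalizing y with
  | zero => rfl
  | succ n ih =>
    rw [pow_succ, pow_succ' (L : E →L[ℝ] E)]
    exact (congrArg _ (L.symm_apply_apply _)).trans (ih y)

omit [CompleteSpace E] in
theorem comm_pow (n : ℕ) (y : E) :
    S.P (((L : E →L[ℝ] E) ^ n) y) = ((L : E →L[ℝ] E) ^ n) (S.P y) := by
  induction n generalizing y with
  | zero => rfl
  | succ n ih =>
    rw [pow_succ]
    exact (ih (L y)).trans (congrArg _ (S.comm y))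

include S in
omit [CompleteSpace E] in
theorem eq_zero (ψ : X ≃ₜ X) (u : X →ᵇ E) (hu : ∀ x, u (ψ x) = L (u x)) : u = 0 := by
  have hit : ∀ (n : ℕ) x, u (ψ^[n] x) = ((L : E →L[ℝ] E) ^ n) (u x) := by
    intro n
    induction n with
    | zero => exact fun x => rfl
    | succ n ih =>
      intro x
      rw [Function.iterate_succ_apply', hu, ih, pow_succ']
      rfl
  have hlim : ∀ n : ℕ, ∀ x, ‖u x‖ ≤ 2 * S.C * ‖u‖ * S.r ^ n := by
    intro n x
    have e1 : S.P (u x) = ((L : E →L[ℝ] E) ^ n * S.P) (u (ψ.symm^[n] x)) := by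
      have h := hit n (ψ.symm^[n] x)
      rw [Function.LeftInverse.iterate (g := ψ) (f := ψ.symm) ψ.apply_symm_apply n] at h
      rw [h, S.comm_pow]
      rfl
    have e2 : u x - S.P (u x) = ((L.symm : E →L[ℝ] E) ^ n * (1 - S.P)) (u (ψ^[n] x)) := by
      show _ = ((L.symm : E →L[ℝ] E) ^ n) (u (ψ^[n] x) - S.P (u (ψ^[n] x)))
      rw [hit n x, S.comm_pow, ← map_sub, pow_symm_pow]
    have h1 : ‖S.P (u x)‖ ≤ S.C * S.r ^ n * ‖u‖ := by
      rw [e1]
      exact (ContinuousLinearMap.le_opNorm _ _).trans (mul_le_mul (S.forward n)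
        (u.norm_coe_le_norm _) (norm_nonneg _) (mul_nonneg S.C_nonneg (pow_nonneg S.r_nonneg n)))
    have h2 : ‖u x - S.P (u x)‖ ≤ S.C * S.r ^ n * ‖u‖ := by
      rw [e2]
      exact (ContinuousLinearMap.le_opNorm _ _).trans (mul_le_mul (S.backward n)
        (u.norm_coe_le_norm _) (norm_nonneg _) (mul_nonneg S.C_nonneg (pow_nonneg S.r_nonneg n)))
    have h3 := norm_add_le (S.P (u x)) (u x - S.P (u x))
    rw [add_sub_cancel] at h3
    linarith
  ext x
  have h0 : Tendsto (fun n : ℕ => 2 * S.C * ‖u‖ * S.r ^ n) atTop (𝓝 0) := by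
    simpa using (tendsto_pow_atTop_nhds_zero_of_lt_one S.r_nonneg S.r_lt_one).const_mul
      (2 * S.C * ‖u‖)
  exact norm_le_zero_iff.1 (ge_of_tendsto' h0 fun n => hlim n x)

theorem eq_solve (ψ : X ≃ₜ X) {u h : X →ᵇ E} (hu : ∀ x, u (ψ x) = L (u x) + h x) :
    u = S.solve ψ h := by
  refine sub_eq_zero.1 (S.eq_zero ψ _ fun x => ?_)
  simp only [BoundedContinuousFunction.coe_sub, Pi.sub_apply, hu, S.solve_eq, map_sub]
  abel

end Splitting

variable [CompleteSpace E] {X : Type*} [NormedAddCommGroup X] [CompleteSpace X]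

/-- A group covered by `E`, with an automorphism covered by `L`. -/
structure Covered (L : E ≃L[ℝ] E) (X : Type*) [NormedAddCommGroup X] where
  /-- The projection. -/
  π : E →+ X
  norm_le : ∀ e, ‖π e‖ ≤ ‖e‖
  /-- The automorphism. -/
  φ : X ≃ₜ X
  /-- A bound for its inverse. -/
  M : ℝ≥0
  map_add : ∀ x y, φ (x + y) = φ x + φ y
  map_proj : ∀ e, φ (π e) = π (L e)
  norm_symm_le : ∀ x, ‖x‖ ≤ M * ‖φ x‖

namespace Covered

variable {L : E ≃L[ℝ] E} (D : Covered L X)

omit [CompleteSpace E] [CompleteSpace X] in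
theorem map_sub (x y : X) : D.φ (x - y) = D.φ x - D.φ y := by
  rw [eq_sub_iff_add_eq, ← D.map_add, sub_add_cancel]

omit [CompleteSpace E] [CompleteSpace X] in
theorem continuous_proj : Continuous D.π :=
  AddMonoidHomClass.continuous_of_bound D.π 1 fun e => by simpa using D.norm_le e

omit [CompleteSpace E] [CompleteSpace X] in
theorem lipschitz_symm : LipschitzWith D.M D.φ.symm := LipschitzWith.of_dist_le_mul fun x y => by
  rw [dist_eq_norm, dist_eq_norm]
  refine (D.norm_symm_le _).trans_eq ?_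
  rw [D.map_sub, D.φ.apply_symm_apply, D.φ.apply_symm_apply]

omit [CompleteSpace E] in
/-- The perturbed map is a homeomorphism. -/
theorem exists_perturbed {g : X → E} {ε : ℝ≥0} (hg : LipschitzWith ε g) (hMε : D.M * ε < 1) :
    ∃ F : X ≃ₜ X, ∀ x, F x = D.φ x + D.π (g x) := by
  set f : X → X := fun x => D.φ x + D.π (g x)
  have hπg : ∀ x x', ‖D.π (g x) - D.π (g x')‖ ≤ ε * ‖x - x'‖ := fun x x' => by
    rw [← _root_.map_sub]
    exact (D.norm_le _).trans (hg.norm_sub_le x x')
  have hsurj : ∀ y, ∃ x, f x = y := by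
    intro y
    have hc : ContractingWith (D.M * ε) fun x => D.φ.symm (y - D.π (g x)) := by
      refine ⟨hMε, LipschitzWith.of_dist_le_mul fun x x' => ?_⟩
      refine (D.lipschitz_symm.dist_le_mul _ _).trans ?_
      rw [NNReal.coe_mul, mul_assoc, dist_eq_norm, dist_eq_norm, sub_sub_sub_cancel_left,
        norm_sub_rev x x']
      exact mul_le_mul_of_nonneg_left (hπg x' x) D.M.coe_nonneg
    refine ⟨ContractingWith.fixedPoint _ hc, ?_⟩
    have h := congrArg D.φ (hc.fixedPoint_isFixedPt (f := fun x => D.φ.symm (y - D.π (g x))))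
    simp only [D.φ.apply_symm_apply] at h
    show D.φ _ + D.π (g _) = y
    rw [← h, sub_add_cancel]
  have hanti : ∀ x x', (1 - D.M * ε) * ‖x - x'‖ ≤ D.M * ‖f x - f x'‖ := by
    intro x x'
    have h1 := D.norm_symm_le (x - x')
    have h2 : ‖D.φ (x - x')‖ ≤ ‖f x - f x'‖ + ε * ‖x - x'‖ := by
      rw [D.map_sub, show D.φ x - D.φ x' = (f x - f x') - (D.π (g x) - D.π (g x')) by
        simp only [f]; abel]
      exact (norm_sub_le _ _).trans (by linarith [hπg x x'])
    have := mul_le_mul_of_nonneg_left h2 D.M.coe_nonneg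
    linarith
  have hpos : (0 : ℝ) < 1 - D.M * ε := sub_pos.2 (by exact_mod_cast hMε)
  have hinj : Function.Injective f := fun x x' hxx' => by
    have := hanti x x'
    rw [hxx', sub_self, norm_zero, mul_zero] at this
    exact sub_eq_zero.1 (norm_le_zero_iff.1 (by nlinarith [norm_nonneg (x - x')]))
  refine ⟨{ toEquiv := Equiv.ofBijective f ⟨hinj, hsurj⟩
            continuous_toFun := D.φ.continuous.add (D.continuous_proj.comp hg.continuous)
            continuous_invFun := ?_ }, fun x => rfl⟩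
  refine (LipschitzWith.of_dist_le_mul (K := Real.toNNReal (D.M / (1 - D.M * ε)))
    fun y y' => ?_).continuous
  rw [dist_eq_norm, dist_eq_norm, Real.coe_toNNReal _ (div_nonneg D.M.coe_nonneg hpos.le),
    div_mul_eq_mul_div, le_div_iff₀ hpos, mul_comm]
  have h := hanti ((Equiv.ofBijective f ⟨hinj, hsurj⟩).symm y)
    ((Equiv.ofBijective f ⟨hinj, hsurj⟩).symm y')
  simp only [Equiv.ofBijective_apply_symm_apply] at h
  exact h

/-- **The conjugacy.** -/
theorem exists_conjugacy (S : Splitting L) (g : X →ᵇ E) {ε : ℝ≥0} (hg : LipschitzWith ε g)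
    (hMε : D.M * ε < 1) (hSε : S.bound * ε < 1) :
    ∃ (F H : X ≃ₜ X) (v : X →ᵇ E), (∀ x, F x = D.φ x + D.π (g x)) ∧
      (∀ x, H x = x + D.π (v x)) ∧ (∀ x, v (D.φ x) = L (v x) + g (x + D.π (v x))) ∧
      ∀ x, H (D.φ x) = F (H x) := by
  obtain ⟨F, hF⟩ := D.exists_perturbed hg hMε
  have hπ := D.continuous_proj
  set sh : (X →ᵇ E) → C(X, X) := fun u => ⟨fun x => x + D.π (u x),
    continuous_id.add (hπ.comp u.continuous)⟩
  have hdist : ∀ (u : X →ᵇ E) x, ‖D.π (u x)‖ ≤ ‖u‖ := fun u x =>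
    (D.norm_le _).trans (u.norm_coe_le_norm x)
  set T : (X →ᵇ E) → X →ᵇ E := fun u => S.solve D.φ (g.compContinuous (sh u))
  have hT : ContractingWith (Real.toNNReal (S.bound * ε)) T := by
    refine ⟨Real.toNNReal_lt_one.2 hSε, LipschitzWith.of_dist_le_mul fun u u' => ?_⟩
    rw [Real.coe_toNNReal _ (mul_nonneg S.bound_nonneg ε.coe_nonneg), dist_eq_norm, dist_eq_norm]
    have e : T u - T u' = S.solve D.φ (g.compContinuous (sh u) - g.compContinuous (sh u')) :=
      S.eq_solve D.φ fun x => by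
        simp only [T, BoundedContinuousFunction.coe_sub, Pi.sub_apply, S.solve_eq,
          _root_.map_sub]
        abel
    rw [e, mul_assoc]
    refine (S.norm_solve_le _ _).trans (mul_le_mul_of_nonneg_left ?_ S.bound_nonneg)
    refine (BoundedContinuousFunction.norm_le (by positivity)).2 fun x => ?_
    simp only [BoundedContinuousFunction.coe_sub, Pi.sub_apply,
      BoundedContinuousFunction.compContinuous_apply]
    refine (hg.norm_sub_le _ _).trans (mul_le_mul_of_nonneg_left ?_ ε.coe_nonneg)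
    show ‖x + D.π (u x) - (x + D.π (u' x))‖ ≤ _
    rw [add_sub_add_left_eq_sub, ← _root_.map_sub]
    exact (D.norm_le _).trans ((u - u').norm_coe_le_norm x)
  set v := ContractingWith.fixedPoint T hT
  have hv : ∀ x, v (D.φ x) = L (v x) + g (x + D.π (v x)) := fun x => by
    have h : T v = v := hT.fixedPoint_isFixedPt
    conv_lhs => rw [← h]
    rw [show T v = S.solve D.φ (g.compContinuous (sh v)) from rfl, S.solve_eq,
      show S.solve D.φ (g.compContinuous (sh v)) = v from h]
    rfl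
  set w := S.solve F (-g)
  have hw : ∀ x, w (F x) = L (w x) - g x := fun x => by
    rw [S.solve_eq]
    exact (sub_eq_add_neg _ _).symm
  have hhF : ∀ x, D.φ x + D.π (v (D.φ x)) = F (x + D.π (v x)) := fun x => by
    rw [hF, hv, _root_.map_add, D.map_add, D.map_proj, add_assoc]
  have hkF : ∀ x, F x + D.π (w (F x)) = D.φ (x + D.π (w x)) := fun x => by
    rw [hw, _root_.map_sub, D.map_add, D.map_proj, hF]
    abel
  -- both compositions are the identity
  have h1 : v + w.compContinuous (sh v) = 0 := S.eq_zero D.φ _ fun x => by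
    show v (D.φ x) + w (D.φ x + D.π (v (D.φ x))) = L (v x + w (x + D.π (v x)))
    rw [hhF, hw, hv, _root_.map_add L]
    abel
  have h2 : w + v.compContinuous (sh w) = 0 := by
    set u := w + v.compContinuous (sh w)
    set d : X →ᵇ E := g.compContinuous ⟨fun x => x + D.π (u x),
      continuous_id.add (hπ.comp u.continuous)⟩ - g
    have hu : u = S.solve F d := S.eq_solve F fun x => by
      show w (F x) + v (F x + D.π (w (F x))) =
        L (w x + v (x + D.π (w x))) + (g (x + D.π (w x + v (x + D.π (w x)))) - g x)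
      rw [hkF, hv, hw, _root_.map_add L, _root_.map_add D.π, add_assoc x]
      abel
    have hd : ‖d‖ ≤ ε * ‖u‖ := (BoundedContinuousFunction.norm_le (by positivity)).2 fun x => by
      refine (hg.norm_sub_le (x + D.π (u x)) x).trans
        (mul_le_mul_of_nonneg_left ?_ ε.coe_nonneg)
      rw [add_sub_cancel_left]
      exact hdist u x
    have := (congrArg norm hu).le.trans ((S.norm_solve_le F d).trans
      (mul_le_mul_of_nonneg_left hd S.bound_nonneg))
    exact norm_le_zero_iff.1 (by nlinarith [norm_nonneg u])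
  let H : X ≃ₜ X :=
    { toFun := sh v
      invFun := sh w
      left_inv := fun x => by
        show x + D.π (v x) + D.π (w (x + D.π (v x))) = x
        rw [add_assoc, ← _root_.map_add]
        show x + D.π ((v + w.compContinuous (sh v)) x) = x
        rw [h1]
        simp
      right_inv := fun x => by
        show x + D.π (w x) + D.π (v (x + D.π (w x))) = x
        rw [add_assoc, ← _root_.map_add]
        show x + D.π ((w + v.compContinuous (sh w)) x) = x
        rw [h2]
        simp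
      continuous_toFun := (sh v).continuous
      continuous_invFun := (sh w).continuous }
  exact ⟨F, H, v, hF, fun x => rfl, hv, hhF⟩

omit [CompleteSpace X] in
/-- **Uniqueness of the conjugacy.** -/
theorem conjugacy_unique (S : Splitting L) (g : X →ᵇ E) {ε : ℝ≥0} (hg : LipschitzWith ε g)
    (hSε : S.bound * ε < 1) {v v' : X →ᵇ E}
    (hv : ∀ x, v (D.φ x) = L (v x) + g (x + D.π (v x)))
    (hv' : ∀ x, v' (D.φ x) = L (v' x) + g (x + D.π (v' x))) : v = v' := by
  set sh : (X →ᵇ E) → C(X, X) := fun u => ⟨fun x => x + D.π (u x),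
    continuous_id.add (D.continuous_proj.comp u.continuous)⟩
  set d := g.compContinuous (sh v) - g.compContinuous (sh v')
  have hu : v - v' = S.solve D.φ d := S.eq_solve D.φ fun x => by
    show v (D.φ x) - v' (D.φ x) =
      L (v x - v' x) + (g (x + D.π (v x)) - g (x + D.π (v' x)))
    rw [hv, hv', _root_.map_sub]
    abel
  have hd : ‖d‖ ≤ ε * ‖v - v'‖ := (BoundedContinuousFunction.norm_le (by positivity)).2 fun x => by
    refine (hg.norm_sub_le (x + D.π (v x)) (x + D.π (v' x))).trans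
      (mul_le_mul_of_nonneg_left ?_ ε.coe_nonneg)
    rw [add_sub_add_left_eq_sub, ← _root_.map_sub]
    exact (D.norm_le _).trans ((v - v').norm_coe_le_norm x)
  have := (congrArg norm hu).le.trans ((S.norm_solve_le D.φ d).trans
    (mul_le_mul_of_nonneg_left hd S.bound_nonneg))
  exact sub_eq_zero.1 (norm_le_zero_iff.1 (by nlinarith [norm_nonneg (v - v')]))

end Covered

end FA.HartmanGrobman
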