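import Fermat.Agent.HartmanGrobman.Abstract
import Mathlib.Analysis.Normed.Module.FiniteDimension
import Mathlib.Analysis.Complex.Polynomial.Basic
import Mathlib.LinearAlgebra.Matrix.Charpoly.Basic
import Mathlib.LinearAlgebra.Matrix.ToLinearEquiv

/-!
# Matrices without eigenvalues on the unit circle

The characteristic polynomial is a product of one with roots inside the circle and one with roots
outside; a Bézout identity gives the projection, and a matrix killed by a product of `a - z` with
`‖z‖ < r` has powers that decay like `r ^ n`.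
-/

set_option autoImplicit false

noncomputable section

namespace FA.HartmanGrobman

open Polynomial

variable {ι : Type*} [Fintype ι] [DecidableEq ι]

/-- **Decay from the roots.** -/
theorem exists_decay (a : Matrix ι ι ℂ) {r : ℝ} (hr : 0 < r) (s : Multiset ℂ)
    (hs : ∀ z ∈ s, ‖z‖ < r) (Q : Matrix ι ι ℂ)
    (h : aeval a (s.map fun z => X - C z).prod * Q = 0) :
    ∃ K : ℝ, 0 ≤ K ∧ ∀ (n : ℕ) (i j : ι), ‖(a ^ n * Q) i j‖ ≤ K * r ^ n := by
  induction s using Multiset.induction_on generalizing Q with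
  | empty =>
    simp only [Multiset.map_zero, Multiset.prod_zero, map_one, one_mul] at h
    exact ⟨0, le_rfl, fun n i j => by simp [h]⟩
  | cons z s ih =>
    set q : Matrix ι ι ℂ := aeval a (X - C z) * Q
    obtain ⟨D, hD, hdec⟩ := ih (fun w hw => hs w (Multiset.mem_cons_of_mem hw)) q (by
      rw [Multiset.map_cons, Multiset.prod_cons, mul_comm, map_mul] at h
      simpa [q, mul_assoc] using h)
    have hz := hs z (Multiset.mem_cons_self z s)
    set T := ∑ i, ∑ j, ‖Q i j‖
    refine ⟨max T (D / (r - ‖z‖)), le_max_of_le_right (div_nonneg hD (sub_pos.2 hz).le),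
      fun n => ?_⟩
    induction n with
    | zero =>
      intro i j
      rw [pow_zero, one_mul, pow_zero, mul_one]
      refine le_max_of_le_left ?_
      exact le_trans (Finset.single_le_sum (f := fun j => ‖Q i j‖) (fun _ _ => norm_nonneg _)
        (Finset.mem_univ j)) (Finset.single_le_sum (f := fun i => ∑ j, ‖Q i j‖)
        (fun _ _ => Finset.sum_nonneg fun _ _ => norm_nonneg _) (Finset.mem_univ i))
    | succ n ihn =>
      intro i j
      have e : a ^ (n + 1) * Q = z • (a ^ n * Q) + a ^ n * q := by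
        simp only [q, map_sub, aeval_X, aeval_C, Algebra.algebraMap_eq_smul_one, sub_mul,
          smul_mul_assoc, one_mul, mul_sub, mul_smul_comm, pow_succ, mul_assoc]
        abel
      rw [e, Matrix.add_apply, Matrix.smul_apply, smul_eq_mul]
      set K := max T (D / (r - ‖z‖))
      have hK : D ≤ K * (r - ‖z‖) := (div_le_iff₀ (sub_pos.2 hz)).1 (le_max_right _ _)
      refine (norm_add_le _ _).trans ?_
      rw [norm_mul, pow_succ]
      have h1 := mul_le_mul_of_nonneg_left (ihn i j) (norm_nonneg z)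
      have h2 := hdec n i j
      have h3 := mul_le_mul_of_nonneg_right hK (pow_nonneg hr.le n)
      linarith

omit [DecidableEq ι] in
theorem isCoprime_roots (s u : Multiset ℂ) (h : ∀ z ∈ s, ∀ w ∈ u, z ≠ w) :
    IsCoprime (s.map fun z => X - C z).prod (u.map fun z => X - C z).prod := by
  induction s using Multiset.induction_on with
  | empty => simp [isCoprime_one_left]
  | cons z s ih =>
    rw [Multiset.map_cons, Multiset.prod_cons]
    refine IsCoprime.mul_left ?_ (ih fun w hw => h w (Multiset.mem_cons_of_mem hw))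
    have h' := h z (Multiset.mem_cons_self z s)
    clear h ih
    induction u using Multiset.induction_on with
    | empty => simp [isCoprime_one_right]
    | cons w u ihu =>
      rw [Multiset.map_cons, Multiset.prod_cons]
      exact IsCoprime.mul_right (isCoprime_X_sub_C_of_isUnit_sub
          (sub_ne_zero.2 (h' w (Multiset.mem_cons_self w u))).isUnit)
        (ihu fun v hv => h' v (Multiset.mem_cons_of_mem hv))

/-- A product over the reciprocal roots of the inverse is a multiple of the one of the matrix. -/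
theorem exists_aeval_inverse {A B : Matrix ι ι ℂ} (hAB : A * B = 1) (u : Multiset ℂ)
    (hu : ∀ z ∈ u, z ≠ 0) :
    ∃ M, aeval B ((u.map fun z => z⁻¹).map fun z => X - C z).prod =
      M * aeval A (u.map fun z => X - C z).prod := by
  induction u using Multiset.induction_on with
  | empty => exact ⟨1, by simp⟩
  | cons z u ih =>
    obtain ⟨M, hM⟩ := ih fun w hw => hu w (Multiset.mem_cons_of_mem hw)
    have hz := hu z (Multiset.mem_cons_self z u)
    have hBA : B * A = 1 := mul_eq_one_comm.1 hAB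
    set p := aeval A (u.map fun z => X - C z).prod
    have hcomm : p * A = A * p := by
      have h := congrArg (aeval A) (mul_comm (u.map fun z => X - C z).prod X)
      rwa [map_mul, map_mul, aeval_X] at h
    have hBp : p * B = B * p :=
      calc p * B = B * A * (p * B) := by rw [hBA, one_mul]
        _ = B * (A * p) * B := by simp only [mul_assoc]
        _ = B * (p * A) * B := by rw [hcomm]
        _ = B * p * (A * B) := by simp only [mul_assoc]
        _ = B * p := by rw [hAB, mul_one]
    have hfac : B - z⁻¹ • (1 : Matrix ι ι ℂ) = (-z⁻¹) • B * (A - z • 1) := by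
      rw [mul_sub, smul_mul_assoc, hBA, mul_smul_comm, mul_one, smul_smul, mul_neg,
        mul_inv_cancel₀ hz, neg_smul, neg_smul, one_smul]
      abel
    refine ⟨M * ((-z⁻¹) • B), ?_⟩
    rw [Multiset.map_cons, Multiset.map_cons, Multiset.map_cons, Multiset.prod_cons,
      Multiset.prod_cons, mul_comm, map_mul, hM, map_sub, aeval_X, aeval_C,
      Algebra.algebraMap_eq_smul_one, hfac, mul_comm (X - C z), map_mul, map_sub, aeval_X,
      aeval_C, Algebra.algebraMap_eq_smul_one]
    simp only [mul_assoc]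
    congr 1
    rw [← mul_assoc, mul_smul_comm, hBp, smul_mul_assoc, mul_assoc, smul_mul_assoc]

/-- The real part of a complex matrix. -/
def rePart (M : Matrix ι ι ℂ) : Matrix ι ι ℝ := M.map Complex.re

omit [DecidableEq ι] in
theorem mul_rePart (A : Matrix ι ι ℝ) (M : Matrix ι ι ℂ) :
    A * rePart M = rePart (A.map (algebraMap ℝ ℂ) * M) := by
  ext i j
  simp [rePart, Matrix.mul_apply, Complex.re_sum]

omit [DecidableEq ι] in
theorem rePart_mul (A : Matrix ι ι ℝ) (M : Matrix ι ι ℂ) :
    rePart M * A = rePart (M * A.map (algebraMap ℝ ℂ)) := by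
  ext i j
  simp [rePart, Matrix.mul_apply, Complex.re_sum]

omit [DecidableEq ι] in
theorem norm_mulVec_le {M : Matrix ι ι ℝ} {b : ℝ} (hb : 0 ≤ b) (hM : ∀ i j, |M i j| ≤ b)
    (x : ι → ℝ) : ‖M.mulVec x‖ ≤ Fintype.card ι * b * ‖x‖ := by
  refine (pi_norm_le_iff_of_nonneg (by positivity)).2 fun i => ?_
  rw [Real.norm_eq_abs, Matrix.mulVec, dotProduct]
  refine (Finset.abs_sum_le_sum_abs _ _).trans
    ((Finset.sum_le_sum (g := fun _ => b * ‖x‖) fun j _ => ?_).trans_eq (by simp; ring))
  rw [abs_mul]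
  exact mul_le_mul (hM i j) (norm_le_pi_norm x j) (abs_nonneg _) hb

/-- The automorphism of `ι → ℝ` given by an invertible matrix. -/
def matrixEquiv (A : Matrix ι ι ℝ) (hA : IsUnit A.det) : (ι → ℝ) ≃L[ℝ] ι → ℝ :=
  (Matrix.toLinearEquiv' A (Matrix.invertibleOfIsUnitDet A hA)).toContinuousLinearEquiv

theorem matrixEquiv_apply (A : Matrix ι ι ℝ) (hA : IsUnit A.det) (x : ι → ℝ) :
    matrixEquiv A hA x = A.mulVec x := rfl

theorem matrixEquiv_symm_apply (A : Matrix ι ι ℝ) (hA : IsUnit A.det) (x : ι → ℝ) :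
    (matrixEquiv A hA).symm x = A⁻¹.mulVec x := by
  rw [ContinuousLinearEquiv.symm_apply_eq, matrixEquiv_apply, Matrix.mulVec_mulVec,
    Matrix.mul_nonsing_inv A hA, Matrix.one_mulVec]

/-- **No eigenvalue on the unit circle gives a splitting.** -/
theorem exists_splitting (A : Matrix ι ι ℝ) (hA : IsUnit A.det)
    (h : ∀ z : ℂ, ‖z‖ = 1 → (A.map (algebraMap ℝ ℂ)).charpoly.eval z ≠ 0) :
    Nonempty (Splitting (matrixEquiv A hA)) := by
  set Ac := A.map (algebraMap ℝ ℂ) with hAc
  set Bc := A⁻¹.map (algebraMap ℝ ℂ) with hBc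
  have hAB : Ac * Bc = 1 := by
    rw [hAc, hBc, ← Matrix.map_mul, Matrix.mul_nonsing_inv A hA,
      Matrix.map_one _ (map_zero _) (map_one _)]
  set R := Ac.charpoly.roots
  have hroot : ∀ z ∈ R, ‖z‖ ≠ 1 ∧ z ≠ 0 := fun z hz => by
    refine ⟨fun h1 => h z h1 ((mem_roots'.1 hz).2), fun h0 => ?_⟩
    have he : Ac.charpoly.eval 0 = 0 := by
      have := (mem_roots'.1 hz).2
      rwa [h0] at this
    have hdet : Ac.det = 0 := by
      rw [Matrix.det_eq_sign_charpoly_coeff, coeff_zero_eq_eval_zero, he, mul_zero]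
    have h2 := congrArg Matrix.det hAB
    rw [Matrix.det_mul, hdet, zero_mul, Matrix.det_one] at h2
    exact zero_ne_one h2
  set s := R.filter fun z => ‖z‖ < 1
  set u := R.filter fun z => ¬ ‖z‖ < 1
  obtain ⟨r, hr0, hr1, hrs, hru⟩ : ∃ r : ℝ, 0 < r ∧ r < 1 ∧ (∀ z ∈ s, ‖z‖ < r) ∧
      ∀ z ∈ u.map fun z => z⁻¹, ‖z‖ < r := by
    have : ∀ t : Multiset ℂ, (∀ z ∈ t, ‖z‖ < 1) →
        ∃ r : ℝ, 0 < r ∧ r < 1 ∧ ∀ z ∈ t, ‖z‖ < r := by
      intro t ht
      induction t using Multiset.induction_on with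
      | empty => exact ⟨1 / 2, by norm_num, by norm_num, by simp⟩
      | cons z t ih =>
        obtain ⟨r, hr0, hr1, hr⟩ := ih fun w hw => ht w (Multiset.mem_cons_of_mem hw)
        obtain ⟨c, hc1, hc2⟩ := exists_between (ht z (Multiset.mem_cons_self z t))
        refine ⟨max r c, lt_max_of_lt_left hr0, max_lt hr1 hc2, fun w hw => ?_⟩
        rcases Multiset.mem_cons.1 hw with rfl | hw
        · exact lt_max_of_lt_right hc1
        · exact lt_max_of_lt_left (hr w hw)
    obtain ⟨r, hr0, hr1, hr⟩ := this (s + u.map fun z => z⁻¹) fun z hz => by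
      rcases Multiset.mem_add.1 hz with hz | hz
      · exact (Multiset.mem_filter.1 hz).2
      · obtain ⟨w, hw, rfl⟩ := Multiset.mem_map.1 hz
        obtain ⟨hwR, hw1⟩ := Multiset.mem_filter.1 hw
        rw [norm_inv]
        exact inv_lt_one_of_one_lt₀ (lt_of_le_of_ne (not_lt.1 hw1) (hroot w hwR).1.symm)
    exact ⟨r, hr0, hr1, fun z hz => hr z (Multiset.mem_add.2 (Or.inl hz)),
      fun z hz => hr z (Multiset.mem_add.2 (Or.inr hz))⟩
  set fs := (s.map fun z => X - C z).prod
  set fu := (u.map fun z => X - C z).prod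
  obtain ⟨a, b, hab⟩ := isCoprime_roots s u fun z hz w hw hzw =>
    (Multiset.mem_filter.1 hw).2 (hzw ▸ (Multiset.mem_filter.1 hz).2)
  have hf : fs * fu = Ac.charpoly := by
    rw [← Multiset.prod_add, ← Multiset.map_add, Multiset.filter_add_not]
    exact ((IsAlgClosed.splits _).eq_prod_roots_of_monic (Matrix.charpoly_monic _)).symm
  set Pc := aeval Ac (b * fu)
  have hPc1 : aeval Ac fs * Pc = 0 := by
    rw [← map_mul, mul_left_comm, hf, map_mul, Matrix.aeval_self_charpoly, mul_zero]
  have hone : (1 : Matrix ι ι ℂ) - Pc = aeval Ac (a * fs) := by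
    rw [sub_eq_iff_eq_add, ← map_add, hab, map_one]
  have hPc2 : aeval Ac fu * (1 - Pc) = 0 := by
    rw [hone, ← map_mul, mul_left_comm, mul_comm fu fs, hf, map_mul, Matrix.aeval_self_charpoly,
      mul_zero]
  obtain ⟨K₁, hK₁, hfw⟩ := exists_decay Ac hr0 s hrs Pc hPc1
  obtain ⟨M, hM⟩ := exists_aeval_inverse hAB u fun z hz => (hroot z (Multiset.mem_filter.1 hz).1).2
  obtain ⟨K₂, hK₂, hbw⟩ := exists_decay Bc hr0 _ hru (1 - Pc) (by
    rw [hM, mul_assoc, hPc2, mul_zero])
  set K := max K₁ K₂
  set P₀ := rePart Pc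
  have hpow : ∀ (B : Matrix ι ι ℝ) (n : ℕ),
      (B ^ n).map (algebraMap ℝ ℂ) = B.map (algebraMap ℝ ℂ) ^ n := fun B n =>
    map_pow (algebraMap ℝ ℂ).mapMatrix B n
  have hb1 : ∀ n i j, |(A ^ n * P₀) i j| ≤ K * r ^ n := fun n i j => by
    rw [mul_rePart, hpow]
    exact (Complex.abs_re_le_norm _).trans ((hfw n i j).trans
      (mul_le_mul_of_nonneg_right (le_max_left _ _) (pow_nonneg hr0.le n)))
  have hone' : (1 : Matrix ι ι ℝ) - P₀ = rePart (1 - Pc) := by
    ext i j
    simp [P₀, rePart, Matrix.one_apply, apply_ite Complex.re]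
  have hb2 : ∀ n i j, |(A⁻¹ ^ n * (1 - P₀)) i j| ≤ K * r ^ n := fun n i j => by
    rw [hone', mul_rePart, hpow]
    exact (Complex.abs_re_le_norm _).trans ((hbw n i j).trans
      (mul_le_mul_of_nonneg_right (le_max_right _ _) (pow_nonneg hr0.le n)))
  have hcomm : P₀ * A = A * P₀ := by
    rw [rePart_mul, mul_rePart, ← hAc]
    congr 1
    have h := congrArg (aeval Ac) (mul_comm (b * fu) X)
    rwa [map_mul _ (b * fu) X, map_mul _ X (b * fu), aeval_X] at h
  set P : (ι → ℝ) →L[ℝ] ι → ℝ := (Matrix.mulVecLin P₀).toContinuousLinearMap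
  have hLn : ∀ (n : ℕ) x, ((matrixEquiv A hA : (ι → ℝ) →L[ℝ] ι → ℝ) ^ n) x = (A ^ n).mulVec x := by
    intro n
    induction n with
    | zero => intro x; simp
    | succ n ih =>
      intro x
      rw [pow_succ', mul_apply_eq_comp, pow_succ', ← Matrix.mulVec_mulVec, ← ih]
      rfl
  have hLsn : ∀ (n : ℕ) x,
      (((matrixEquiv A hA).symm : (ι → ℝ) →L[ℝ] ι → ℝ) ^ n) x = (A⁻¹ ^ n).mulVec x := by
    intro n
    induction n with
    | zero => intro x; simp
    | succ n ih =>
      intro x
      rw [pow_succ', mul_apply_eq_comp, pow_succ', ← Matrix.mulVec_mulVec, ← ih]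
      exact matrixEquiv_symm_apply A hA _
  have hK : 0 ≤ K := le_max_of_le_left hK₁
  refine ⟨{ P := P, C := Fintype.card ι * K, r := r, C_nonneg := by positivity,
            r_nonneg := hr0.le, r_lt_one := hr1, comm := fun x => ?_,
            forward := fun n => ?_, backward := fun n => ?_ }⟩
  · show P₀.mulVec (A.mulVec x) = A.mulVec (P₀.mulVec x)
    rw [Matrix.mulVec_mulVec, Matrix.mulVec_mulVec, hcomm]
  · refine ContinuousLinearMap.opNorm_le_bound _ (by positivity) fun x => ?_
    rw [mul_apply_eq_comp, hLn, show P x = P₀.mulVec x from rfl, Matrix.mulVec_mulVec,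
      mul_assoc (Fintype.card ι : ℝ)]
    exact norm_mulVec_le (by positivity) (hb1 n) x
  · refine ContinuousLinearMap.opNorm_le_bound _ (by positivity) fun x => ?_
    rw [mul_apply_eq_comp, hLsn, show (1 - P) x = x - P₀.mulVec x from rfl,
      show x - P₀.mulVec x = (1 - P₀).mulVec x by rw [Matrix.sub_mulVec, Matrix.one_mulVec],
      Matrix.mulVec_mulVec, mul_assoc (Fintype.card ι : ℝ)]
    exact norm_mulVec_le (by positivity) (hb2 n) x

end FA.HartmanGrobman
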