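import Fermat.Agent.HartmanGrobman.Hyperbolic
import Mathlib.Analysis.Calculus.InverseFunctionTheorem.FDeriv

/-!
# The theorem of Hartman and Grobman

A small bounded Lipschitz perturbation of a hyperbolic map of a Banach space is conjugate to it by
exactly one homeomorphism at bounded distance from the identity.  Composing the error term with
the radial retraction of a small ball gives the local theorem at a hyperbolic fixed point.
-/

set_option autoImplicit false

noncomputable section

namespace FA.HartmanGrobman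

open Filter Topology
open scoped BoundedContinuousFunction NNReal

variable {E : Type*} [NormedAddCommGroup E] [NormedSpace ℝ E]

/-- A constant small against two others. -/
theorem exists_small (M : ℝ≥0) {b : ℝ} (hb : 0 ≤ b) :
    ∃ ε : ℝ≥0, 0 < ε ∧ M * ε < 1 ∧ b * ε < 1 := by
  refine ⟨(M + b.toNNReal + 1)⁻¹, by positivity, ?_, ?_⟩
  · rw [mul_inv_lt_iff₀ (by positivity), one_mul]
    exact lt_of_le_of_lt le_self_add (lt_add_one _)
  · rw [NNReal.coe_inv, mul_inv_lt_iff₀ (by positivity), one_mul, NNReal.coe_add, NNReal.coe_add,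
      NNReal.coe_one, Real.coe_toNNReal b hb]
    linarith [M.coe_nonneg]

/-- A Banach space covers itself. -/
def selfCovered (L : E ≃L[ℝ] E) : Covered L E where
  π := AddMonoidHom.id E
  norm_le _ := le_rfl
  φ := L.toHomeomorph
  M := ‖(L.symm : E →L[ℝ] E)‖₊
  map_add := L.map_add
  map_proj _ := rfl
  norm_symm_le x := by simpa using (L.symm : E →L[ℝ] E).le_opNorm (L x)

variable [CompleteSpace E] {L : E ≃L[ℝ] E}

/-- **The theorem of Hartman and Grobman.** -/
theorem hartman_grobman (S : Splitting L) :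
    ∃ ε : ℝ≥0, 0 < ε ∧ ∀ g : E →ᵇ E, LipschitzWith ε g →
      ∃ F : E ≃ₜ E, (∀ x, F x = L x + g x) ∧
        ∃! H : E ≃ₜ E, (∃ K, ∀ x, ‖H x - x‖ ≤ K) ∧ ∀ x, H (L x) = F (H x) := by
  obtain ⟨ε, hε, hMε, hSε⟩ := exists_small (selfCovered L).M S.bound_nonneg
  refine ⟨ε, hε, fun g hg => ?_⟩
  obtain ⟨F, H, v, hF, hH, hv, hHF⟩ := (selfCovered L).exists_conjugacy S g hg hMε hSε
  refine ⟨F, hF, H, ⟨⟨‖v‖, fun x => ?_⟩, hHF⟩, ?_⟩
  · rw [hH, add_sub_cancel_left]
    exact v.norm_coe_le_norm x
  rintro H' ⟨⟨K, hK⟩, hH'⟩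
  set v' : E →ᵇ E := BoundedContinuousFunction.ofNormedAddCommGroup (fun x => H' x - x)
    (H'.continuous.sub continuous_id) K hK
  have he : ∀ x, x + v' x = H' x := fun x => add_sub_cancel x (H' x)
  have hv' : ∀ x, v' (L x) = L (v' x) + g (x + v' x) := fun x => by
    rw [he]
    show H' (L x) - L x = L (H' x - x) + g (H' x)
    rw [hH', hF, _root_.map_sub]
    show L (H' x) + g (H' x) - L x = _
    abel
  have hvv : v' = v := (selfCovered L).conjugacy_unique S g hg hSε hv' hv
  ext x
  rw [← he, hvv, hH]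
  rfl

/-- The radial retraction on the ball of radius `δ`. -/
def retract (δ : ℝ) (x : E) : E := (δ / max δ ‖x‖) • x

omit [CompleteSpace E] in
theorem norm_retract_le {δ : ℝ} (hδ : 0 < δ) (x : E) : ‖retract δ x‖ ≤ δ := by
  have hm : 0 < max δ ‖x‖ := lt_max_of_lt_left hδ
  rw [retract, norm_smul, Real.norm_of_nonneg (div_nonneg hδ.le hm.le), div_mul_eq_mul_div,
    div_le_iff₀ hm]
  exact mul_le_mul_of_nonneg_left (le_max_right _ _) hδ.le

omit [CompleteSpace E] in
theorem retract_eq {δ : ℝ} (hδ : 0 < δ) {x : E} (hx : ‖x‖ ≤ δ) : retract δ x = x := by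
  rw [retract, max_eq_left hx, div_self hδ.ne', one_smul]

omit [CompleteSpace E] in
theorem lipschitz_retract {δ : ℝ} (hδ : 0 < δ) : LipschitzWith 2 (retract δ : E → E) :=
  LipschitzWith.of_dist_le_mul fun x y => by
    rw [dist_eq_norm, dist_eq_norm]
    set a := max δ ‖x‖
    set b := max δ ‖y‖
    have ha : 0 < a := lt_max_of_lt_left hδ
    have hb : 0 < b := lt_max_of_lt_left hδ
    have hab : |b - a| ≤ ‖x - y‖ := by
      refine ((abs_max_sub_max_le_max δ ‖y‖ δ ‖x‖).trans ?_)
      rw [sub_self, abs_zero, max_eq_right (abs_nonneg _), abs_sub_comm]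
      exact abs_norm_sub_norm_le x y
    have h1 : ‖(δ / a) • (x - y)‖ ≤ ‖x - y‖ := by
      rw [norm_smul, Real.norm_of_nonneg (div_nonneg hδ.le ha.le)]
      exact mul_le_of_le_one_left (norm_nonneg _) ((div_le_one ha).2 (le_max_left _ _))
    have h2 : ‖(δ / a - δ / b) • y‖ ≤ ‖x - y‖ := by
      rw [norm_smul, Real.norm_eq_abs, div_sub_div _ _ ha.ne' hb.ne', abs_div,
        abs_of_pos (mul_pos ha hb), div_mul_eq_mul_div, div_le_iff₀ (mul_pos ha hb),
        mul_comm a δ, ← mul_sub, abs_mul, abs_of_pos hδ]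
      have hay : δ * ‖y‖ ≤ a * b :=
        mul_le_mul (le_max_left _ _) (le_max_right _ _) (norm_nonneg _) ha.le
      calc δ * |b - a| * ‖y‖ = |b - a| * (δ * ‖y‖) := by ring
        _ ≤ ‖x - y‖ * (a * b) := mul_le_mul hab hay (by positivity) (norm_nonneg _)
    rw [show retract δ x - retract δ y = (δ / a) • (x - y) + (δ / a - δ / b) • y by
      simp only [retract, smul_sub, sub_smul, a, b]; abel]
    refine (norm_add_le _ _).trans ?_
    rw [show ((2 : ℝ≥0) : ℝ) = 2 from rfl]
    linarith

/-- **The local theorem.** -/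
theorem hartman_grobman_local (S : Splitting L) {f : E → E} {p : E} (hf : f p = p)
    (hd : HasStrictFDerivAt f (L : E →L[ℝ] E) p) :
    ∃ (H : E ≃ₜ E) (U : Set E), IsOpen U ∧ (0 : E) ∈ U ∧ H 0 = p ∧
      ∀ x ∈ U, f (H x) = H (L x) := by
  obtain ⟨ε, hε, hMε, hSε⟩ := exists_small (selfCovered L).M S.bound_nonneg
  obtain ⟨s, hs, happ⟩ := hd.approximates_deriv_on_nhds (c := ε / 2) (Or.inr (by positivity))
  obtain ⟨δ, hδ, hδs⟩ := (Metric.nhds_basis_closedBall (x := p)).mem_iff.1 hs
  set h : E → E := fun y => f (p + retract δ y) - p - L (retract δ y)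
  have hmem : ∀ y, p + retract δ y ∈ s := fun y =>
    hδs (by rw [mem_closedBall_iff_norm, add_sub_cancel_left]; exact norm_retract_le hδ y)
  have hh0 : h 0 = 0 := by simp [h, retract, hf]
  have hlip : LipschitzWith ε h := LipschitzWith.of_dist_le_mul fun y z => by
    rw [dist_eq_norm, dist_eq_norm]
    have h1 := happ _ (hmem y) _ (hmem z)
    rw [add_sub_add_left_eq_sub, _root_.map_sub] at h1
    rw [show h y - h z = f (p + retract δ y) - f (p + retract δ z) -
      (L (retract δ y) - L (retract δ z)) by simp only [h]; abel]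
    refine h1.trans ?_
    have h2 := (lipschitz_retract hδ).norm_sub_le y z
    rw [NNReal.coe_div]
    have h3 := mul_le_mul_of_nonneg_left h2 ε.coe_nonneg
    push_cast at h3 ⊢
    linarith
  set g : E →ᵇ E := BoundedContinuousFunction.ofNormedAddCommGroup h hlip.continuous (ε * δ)
    fun y => by
      have h1 := happ _ (hmem y) p (hδs (Metric.mem_closedBall_self hδ.le))
      rw [add_sub_cancel_left, hf] at h1
      refine h1.trans (mul_le_mul ?_ (norm_retract_le hδ y) (norm_nonneg _) ε.coe_nonneg)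
      rw [NNReal.coe_div]
      exact div_le_self ε.coe_nonneg (by norm_num)
  obtain ⟨F, H, v, hF, hH, hv, hHF⟩ := (selfCovered L).exists_conjugacy S g hlip hMε hSε
  -- the origin stays fixed
  have hz : v 0 = 0 := by
    set z := v 0
    have hz : z = L z + g z := by
      have := hv 0
      rwa [show (selfCovered L).φ 0 = 0 from L.map_zero,
        show (0 : E) + (selfCovered L).π z = z from zero_add z] at this
    have e : BoundedContinuousFunction.const E z =
        S.solve L.toHomeomorph (BoundedContinuousFunction.const E (g z)) :=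
      S.eq_solve _ fun _ => hz
    have h1 := congrArg norm e
    have h2 := S.norm_solve_le L.toHomeomorph (BoundedContinuousFunction.const E (g z))
    rw [← h1, BoundedContinuousFunction.norm_const_eq,
      BoundedContinuousFunction.norm_const_eq] at h2
    have h3 : ‖g z‖ ≤ ε * ‖z‖ := by
      have := hlip.norm_sub_le z 0
      rwa [hh0, sub_zero, sub_zero] at this
    have h4 := h2.trans (mul_le_mul_of_nonneg_left h3 S.bound_nonneg)
    exact norm_le_zero_iff.1 (by nlinarith [norm_nonneg z])
  have hH0 : H 0 = 0 := by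
    rw [hH, hz, _root_.map_zero, add_zero]
  refine ⟨H.trans (Homeomorph.addLeft p), {x | ‖H x‖ < δ},
    isOpen_lt H.continuous.norm continuous_const, by simpa [hH0] using hδ, by simp [hH0],
    fun x hx => ?_⟩
  show f (p + H x) = p + H (L x)
  have := hHF x
  rw [hF] at this
  show _ = p + H ((selfCovered L).φ x)
  rw [this]
  show f (p + H x) = p + (L (H x) + (f (p + retract δ (H x)) - p - L (retract δ (H x))))
  rw [retract_eq hδ (le_of_lt hx)]
  abel

/-- **Hyperbolic matrices are those without eigenvalues on the unit circle.** -/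
theorem hyperbolic_iff_roots {ι : Type*} [Fintype ι] [DecidableEq ι] (A : Matrix ι ι ℝ)
    (hA : IsUnit A.det) :
    Nonempty (Splitting (matrixEquiv A hA)) ↔
      ∀ z : ℂ, ‖z‖ = 1 → (A.map (algebraMap ℝ ℂ)).charpoly.eval z ≠ 0 := by
  refine ⟨?_, exists_splitting A hA⟩
  rintro ⟨S⟩ z hz heval
  set Ac := A.map (algebraMap ℝ ℂ)
  rw [Matrix.eval_charpoly] at heval
  obtain ⟨w, hw0, hw⟩ := Matrix.exists_mulVec_eq_zero_iff.2 heval
  rw [Matrix.sub_mulVec, sub_eq_zero] at hw
  have hw' : Ac.mulVec w = z • w := by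
    rw [← hw]
    ext i
    simp [Matrix.mulVec_diagonal, Matrix.scalar_apply]
  have key : ∀ c : ℂ, ∀ i, (c * w i).re = 0 := by
    intro c
    set u : ℤ → ι → ℝ := fun n i => (c * z ^ n * w i).re
    have hu : ∀ n, ‖u n‖ ≤ ‖c‖ * ‖w‖ := fun n => by
      refine (pi_norm_le_iff_of_nonneg (by positivity)).2 fun i => ?_
      refine (Complex.abs_re_le_norm _).trans ?_
      rw [norm_mul, norm_mul, norm_zpow, hz, one_zpow, mul_one]
      exact mul_le_mul_of_nonneg_left (norm_le_pi_norm w i) (norm_nonneg c)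
    have h0 := S.eq_zero (Homeomorph.addRight (1 : ℤ))
      (BoundedContinuousFunction.ofNormedAddCommGroup u continuous_of_discreteTopology _ hu)
      fun n => by
        show u (n + 1) = A.mulVec (u n)
        funext i
        have h1 := congrFun hw' i
        simp only [Matrix.mulVec, dotProduct, Pi.smul_apply, smul_eq_mul, Ac, Matrix.map_apply,
          Complex.coe_algebraMap] at h1
        simp only [u, Matrix.mulVec, dotProduct]
        rw [zpow_add_one₀ (norm_ne_zero_iff.1 (by rw [hz]; exact one_ne_zero)), ← mul_assoc,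
          mul_assoc (c * z ^ n), ← h1, Finset.mul_sum, Complex.re_sum]
        refine Finset.sum_congr rfl fun j _ => ?_
        rw [← mul_assoc, mul_comm _ (A i j : ℂ), mul_assoc, Complex.re_ofReal_mul]
    intro i
    have := congrFun (DFunLike.congr_fun h0 (0 : ℤ)) i
    simpa [u] using this
  refine hw0 (funext fun i => Complex.ext ?_ ?_)
  · simpa using key 1 i
  · simpa using key Complex.I i

end FA.HartmanGrobman
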