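import Fermat.Agent.HartmanGrobman.Theorems
import Fermat.Agent.ToralPeriodic.Kernel

/-!
# Anosov's structural stability of hyperbolic toral automorphisms

An integer matrix of determinant `± 1` without eigenvalues on the unit circle covers its toral
automorphism, so a perturbation of the automorphism by a Lipschitz small vector field is conjugate
to it by a homeomorphism homotopic to the identity.
-/

set_option autoImplicit false

noncomputable section

namespace FA.HartmanGrobman

open FA.ToralEntropy FA.ToralPeriodic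
open scoped BoundedContinuousFunction NNReal

variable {ι : Type*} [Fintype ι]

omit [Fintype ι] in
theorem proj_zero : proj (0 : ι → ℝ) = 0 := rfl

theorem norm_proj_le (e : ι → ℝ) : ‖proj e‖ ≤ ‖e‖ :=
  (pi_norm_le_iff_of_nonneg (norm_nonneg e)).2 fun i =>
    QuotientAddGroup.norm_mk_le_norm.trans (norm_le_pi_norm e i)

theorem norm_toral_le (B : Matrix ι ι ℤ) (x : ι → UnitAddCircle) :
    ‖toral B x‖ ≤ stepBound B * ‖x‖ := by
  have hB : 0 ≤ stepBound B := by
    have := Finset.sum_nonneg fun i (_ : i ∈ Finset.univ) =>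
      Finset.sum_nonneg fun j (_ : j ∈ Finset.univ) => abs_nonneg (B i j : ℝ)
    simp only [stepBound]
    linarith
  refine (pi_norm_le_iff_of_nonneg (mul_nonneg hB (norm_nonneg x))).2 fun i => ?_
  refine (norm_sum_le _ _).trans ?_
  calc ∑ j, ‖B i j • x j‖ ≤ ∑ j, |(B i j : ℝ)| * ‖x‖ := Finset.sum_le_sum fun j _ => by
        refine (norm_zsmul_le _ _).trans ?_
        rw [Int.norm_eq_abs]
        exact mul_le_mul_of_nonneg_left (norm_le_pi_norm x j) (abs_nonneg _)
    _ ≤ stepBound B * ‖x‖ := by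
        rw [← Finset.sum_mul]
        refine mul_le_mul_of_nonneg_right ?_ (norm_nonneg x)
        have := Finset.single_le_sum (f := fun i => ∑ j, |(B i j : ℝ)|)
          (fun i _ => Finset.sum_nonneg fun j _ => abs_nonneg _) (Finset.mem_univ i)
        simp only [stepBound]
        linarith

variable [DecidableEq ι]

theorem isUnit_det_cast {A : Matrix ι ι ℤ} (hA : IsUnit A.det) :
    IsUnit (A.map (Int.cast : ℤ → ℝ)).det := by
  rw [← Int.cast_det]
  exact hA.map (Int.castRingHom ℝ)

/-- The automorphism of the torus. -/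
def toralHomeo (A : Matrix ι ι ℤ) (hA : IsUnit A.det) :
    (ι → UnitAddCircle) ≃ₜ (ι → UnitAddCircle) where
  toFun := toral A
  invFun := toral A⁻¹
  left_inv x := by rw [← toral_mul, Matrix.nonsing_inv_mul A hA, toral_one]
  right_inv x := by rw [← toral_mul, Matrix.mul_nonsing_inv A hA, toral_one]
  continuous_toFun := continuous_toral A
  continuous_invFun := continuous_toral A⁻¹

/-- The torus covered by `ℝ ^ ι`. -/
def toralCovered (A : Matrix ι ι ℤ) (hA : IsUnit A.det) :
    Covered (matrixEquiv (A.map (Int.cast : ℤ → ℝ)) (isUnit_det_cast hA))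
      (ι → UnitAddCircle) where
  π := { toFun := proj, map_zero' := proj_zero, map_add' := proj_add }
  norm_le := norm_proj_le
  φ := toralHomeo A hA
  M := (stepBound A⁻¹).toNNReal
  map_add := toral_add A
  map_proj e := toral_proj A e
  norm_symm_le x := by
    refine le_trans ?_ (mul_le_mul_of_nonneg_right (Real.le_coe_toNNReal _) (norm_nonneg _))
    refine le_of_eq_of_le ?_ (norm_toral_le A⁻¹ _)
    exact congrArg norm ((toralHomeo A hA).symm_apply_apply x).symm

/-- **Anosov: hyperbolic toral automorphisms are structurally stable.** -/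
theorem toral_stability (A : Matrix ι ι ℤ) (hA : IsUnit A.det)
    (hroots : ∀ z : ℂ, ‖z‖ = 1 → (A.map (Int.cast : ℤ → ℂ)).charpoly.eval z ≠ 0) :
    ∃ ε : ℝ≥0, 0 < ε ∧ ∀ g : (ι → UnitAddCircle) → ι → ℝ, LipschitzWith ε g →
      ∃ (F H : (ι → UnitAddCircle) ≃ₜ (ι → UnitAddCircle)) (v : C(ι → UnitAddCircle, ι → ℝ)),
        (∀ x, F x = toral A x + proj (g x)) ∧ (∀ x, H x = x + proj (v x)) ∧
        ∀ x, H (toral A x) = F (H x) := by
  have hmap : (A.map (Int.cast : ℤ → ℝ)).map (algebraMap ℝ ℂ) = A.map (Int.cast : ℤ → ℂ) := by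
    ext i j
    simp
  obtain ⟨S⟩ := exists_splitting (A.map (Int.cast : ℤ → ℝ)) (isUnit_det_cast hA)
    (by rw [hmap]; exact hroots)
  obtain ⟨ε, hε, hMε, hSε⟩ := exists_small (toralCovered A hA).M S.bound_nonneg
  refine ⟨ε, hε, fun g hg => ?_⟩
  obtain ⟨F, H, v, hF, hH, -, hHF⟩ := (toralCovered A hA).exists_conjugacy S
    (BoundedContinuousFunction.mkOfCompact ⟨g, hg.continuous⟩) hg hMε hSε
  exact ⟨F, H, v.toContinuousMap, hF, hH, hHF⟩

/-- Arnold's cat map satisfies the hypotheses. -/
theorem catMap_hyperbolic : IsUnit (!![2, 1; 1, 1] : Matrix (Fin 2) (Fin 2) ℤ).det ∧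
    ∀ z : ℂ, ‖z‖ = 1 →
      ((!![2, 1; 1, 1] : Matrix (Fin 2) (Fin 2) ℤ).map (Int.cast : ℤ → ℂ)).charpoly.eval z ≠ 0 := by
  refine ⟨by simp [Matrix.det_fin_two], fun z hz h => ?_⟩
  rw [Matrix.charpoly_fin_two] at h
  simp [Matrix.trace_fin_two, Matrix.det_fin_two] at h
  have h2 : (3 : ℂ) * z = z ^ 2 + 1 := by linear_combination -h
  have h3 := norm_add_le (z ^ 2) (1 : ℂ)
  rw [← h2, norm_mul, norm_pow, hz, norm_one] at h3
  norm_num at h3

end FA.HartmanGrobman
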